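import Fermat.Agent.PrimeResidues.Rankin
import Fermat.Agent.Tau.SiegelBound

/-!
# The coefficients of `ζ(s) L(s, χ)` for a real character

If few primes `ℓ ≤ x` have `χ ℓ = 1` then `∑_{d ∣ n} χ d`, `n ≤ x`, is nonzero only for `n` a square
times a number composed of them, so its sum is small.
-/

set_option autoImplicit false

noncomputable section

namespace FA.PrimeResidues

open Finset ArithmeticFunction
open scoped ArithmeticFunction.zeta

variable {q : ℕ} [Fact (1 < q)]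

/-- `n ↦ χ n` for a real character. -/
def charRe (χ : DirichletCharacter ℂ q) : ArithmeticFunction ℝ :=
  ⟨fun n => (χ (n : ZMod q)).re, by rw [Nat.cast_zero, MulChar.map_zero, Complex.zero_re]⟩

theorem charRe_apply (χ : DirichletCharacter ℂ q) (n : ℕ) : charRe χ n = (χ (n : ZMod q)).re :=
  rfl

theorem isMultiplicative_charRe {χ : DirichletCharacter ℂ q} (h2 : χ ^ 2 = 1) :
    (charRe χ).IsMultiplicative := by
  refine ⟨by simp [charRe_apply], fun {m n} _ => ?_⟩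
  simp only [charRe_apply, Nat.cast_mul, map_mul, Complex.mul_re,
    FA.Siegel.apply_im_of_sq_eq_one h2, mul_zero, sub_zero]

/-- `∑_{d ∣ n} χ d`. -/
def splitCoeff (χ : DirichletCharacter ℂ q) : ArithmeticFunction ℝ :=
  (ζ : ArithmeticFunction ℝ) * charRe χ

theorem splitCoeff_apply (χ : DirichletCharacter ℂ q) (n : ℕ) :
    splitCoeff χ n = ∑ d ∈ n.divisors, (χ (d : ZMod q)).re :=
  coe_zeta_mul_apply

/-- The primes `ℓ ≤ x` with `χ ℓ = 1`. -/
def residuePrimes (χ : DirichletCharacter ℂ q) (x : ℕ) : Finset ℕ :=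
  (Icc 1 x).filter fun ℓ => ℓ.Prime ∧ χ (ℓ : ZMod q) = 1

omit [Fact (1 < q)] in
theorem mem_residuePrimes {χ : DirichletCharacter ℂ q} {x ℓ : ℕ} :
    ℓ ∈ residuePrimes χ x ↔ (1 ≤ ℓ ∧ ℓ ≤ x) ∧ ℓ.Prime ∧ χ (ℓ : ZMod q) = 1 := by
  simp [residuePrimes]

/-- The support of the coefficients. -/
theorem splitCoeff_le {χ : DirichletCharacter ℂ q} (h2 : χ ^ 2 = 1) {x : ℕ}
    (hx : ∀ ℓ : ℕ, ℓ.Prime → ℓ ≤ x → χ (ℓ : ZMod q) ≠ 0) :
    ∀ n : ℕ, 0 < n → n ≤ x → 0 ≤ splitCoeff χ n ∧ (splitCoeff χ n ≠ 0 →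
      ∃ u m : ℕ, u * m ^ 2 = n ∧ u ∈ Nat.factoredNumbers (residuePrimes χ x) ∧
        splitCoeff χ n ≤ u.divisors.card) := by
  have hmul : (splitCoeff χ).IsMultiplicative :=
    isMultiplicative_zeta.natCast.mul (isMultiplicative_charRe h2)
  have hone : (1 : ℕ) ∈ Nat.factoredNumbers (residuePrimes χ x) :=
    Nat.mem_factoredNumbers.2 ⟨one_ne_zero, by simp⟩
  intro n
  induction n using Nat.recOnPrimeCoprime with
  | zero => intro h; omega
  | prime_pow ℓ k hℓ =>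
    intro _ hle
    rcases Nat.eq_zero_or_pos k with rfl | hk
    · simp only [pow_zero, hmul.map_one]
      exact ⟨zero_le_one, fun _ => ⟨1, 1, by simp, hone, by simp⟩⟩
    have hℓx : ℓ ≤ x := (Nat.le_self_pow hk.ne' ℓ).trans hle
    have heq : splitCoeff χ (ℓ ^ k) =
        ∑ i ∈ range (k + 1), (χ (ℓ : ZMod q) ^ i).re := by
      rw [splitCoeff_apply, Nat.sum_divisors_prime_pow hℓ]
      simp only [Nat.cast_pow, map_pow]
    rcases MulChar.isQuadratic_iff_sq_eq_one.2 h2 (ℓ : ZMod q) with h | h | h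
    · exact absurd h (hx ℓ hℓ hℓx)
    · rw [heq, h]
      simp only [one_pow, Complex.one_re, sum_const, card_range, nsmul_one]
      refine ⟨Nat.cast_nonneg _, fun _ => ⟨ℓ ^ k, 1, by simp, ?_, ?_⟩⟩
      · refine Nat.mem_factoredNumbers_of_primeFactors_subset (pow_ne_zero _ hℓ.ne_zero) ?_
        rw [Nat.primeFactors_prime_pow hk.ne' hℓ, singleton_subset_iff, mem_residuePrimes]
        exact ⟨⟨hℓ.one_le, hℓx⟩, hℓ, h⟩
      · rw [Nat.divisors_prime_pow hℓ, card_map, card_range]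
    · have hsum : ∀ j : ℕ, ∑ i ∈ range j, (((-1 : ℂ)) ^ i).re = if Even j then 0 else 1 := by
        intro j
        rw [← Complex.re_sum, neg_one_geom_sum]
        split_ifs <;> simp
      rw [heq, h, hsum]
      rcases Nat.even_or_odd k with ⟨j, rfl⟩ | hodd
      · rw [if_neg (by simp [Nat.even_add_one])]
        refine ⟨zero_le_one, fun _ => ⟨1, ℓ ^ j, ?_, hone, by simp⟩⟩
        rw [one_mul, ← pow_mul, mul_two]
      · rw [if_pos hodd.add_one]
        simp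
  | coprime a b ha hb hab iha ihb =>
    intro _ hle
    obtain ⟨ha0, ha'⟩ := iha (by omega) ((Nat.le_mul_of_pos_right a (by omega)).trans hle)
    obtain ⟨hb0, hb'⟩ := ihb (by omega) ((Nat.le_mul_of_pos_left b (by omega)).trans hle)
    rw [hmul.map_mul_of_coprime hab]
    refine ⟨mul_nonneg ha0 hb0, fun hne => ?_⟩
    rw [mul_ne_zero_iff] at hne
    obtain ⟨u, m, hu, hum, hua⟩ := ha' hne.1
    obtain ⟨v, k, hv, hvm, hvb⟩ := hb' hne.2
    refine ⟨u * v, m * k, by rw [← hu, ← hv]; ring, Nat.mul_mem_factoredNumbers hum hvm, ?_⟩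
    have huv : u.Coprime v :=
      (hab.coprime_dvd_left (hu ▸ dvd_mul_right u _)).coprime_dvd_right (hv ▸ dvd_mul_right v _)
    rw [huv.card_divisors_mul, Nat.cast_mul]
    exact mul_le_mul hua hvb hb0 (Nat.cast_nonneg _)

/-- **The sum of the coefficients is small when few primes are residues.** -/
theorem sum_splitCoeff_le {χ : DirichletCharacter ℂ q} (h2 : χ ^ 2 = 1) {x : ℕ}
    (hx : ∀ ℓ : ℕ, ℓ.Prime → ℓ ≤ x → χ (ℓ : ZMod q) ≠ 0) {σ : ℝ} (hσ : 1 / 2 ≤ σ)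
    (hσ1 : σ < 1) :
    ∑ n ∈ Icc 1 x, splitCoeff χ n ≤
      (x : ℝ) ^ σ * Real.exp (16 / (1 - σ) * ((residuePrimes χ x).card : ℝ) ^ (1 - σ)) := by
  classical
  obtain ⟨S, hS⟩ : ∃ S, S = residuePrimes χ x := ⟨_, rfl⟩
  rw [← hS]
  have hSp : ∀ ℓ ∈ S, Nat.Prime ℓ := fun ℓ hℓ => (mem_residuePrimes.1 (hS ▸ hℓ)).2.1
  obtain ⟨P, hP⟩ : ∃ P, P = (composedUpTo S x ×ˢ Icc 1 x).filter
      fun um : ℕ × ℕ => um.1 * um.2 ^ 2 ≤ x := ⟨_, rfl⟩
  -- every coefficient is covered by a square times a composed number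
  have h1 : ∑ n ∈ Icc 1 x, splitCoeff χ n ≤ ∑ um ∈ P, (um.1.divisors.card : ℝ) := by
    rw [← sum_fiberwise_of_maps_to (t := Icc 1 x) (g := fun um : ℕ × ℕ => um.1 * um.2 ^ 2)
      fun um hum => ?_]
    · refine sum_le_sum fun n hn => ?_
      rw [mem_Icc] at hn
      obtain ⟨-, hn'⟩ := splitCoeff_le h2 hx n hn.1 hn.2
      rcases eq_or_ne (splitCoeff χ n) 0 with h | h
      · rw [h]
        exact sum_nonneg fun _ _ => Nat.cast_nonneg _
      obtain ⟨u, m, hum, hu, hle⟩ := hn' h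
      have hu0 : 0 < u := Nat.pos_of_ne_zero (Nat.ne_zero_of_mem_factoredNumbers hu)
      have hm0 : 0 < m := Nat.pos_of_ne_zero fun h0 => by
        rw [h0] at hum
        simp at hum
        omega
      have hm2 : m ≤ m ^ 2 := Nat.le_self_pow two_ne_zero m
      have hux : u ≤ x := (Nat.le_mul_of_pos_right u (pow_pos hm0 2)).trans (hum ▸ hn.2)
      have hmx : m ≤ x := (hm2.trans (Nat.le_mul_of_pos_left _ hu0)).trans (hum ▸ hn.2)
      refine hle.trans (single_le_sum (f := fun um : ℕ × ℕ => (um.1.divisors.card : ℝ))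
        (fun _ _ => Nat.cast_nonneg _) (a := (u, m)) ?_)
      rw [mem_filter, hP, mem_filter, mem_product, mem_composedUpTo, mem_Icc]
      exact ⟨⟨⟨⟨⟨hu0, hux⟩, hS ▸ hu⟩, hm0, hmx⟩, hum ▸ hn.2⟩, hum⟩
    · rw [hP, mem_filter, mem_product, mem_composedUpTo, mem_Icc] at hum
      rw [mem_Icc]
      exact ⟨Nat.mul_pos hum.1.1.1.1 (pow_pos hum.1.2.1 2), hum.2⟩
  refine h1.trans (le_trans ?_ (mul_le_mul_of_nonneg_left (sum_composed_tau_le S hSp x hσ hσ1)
    (Real.rpow_nonneg (Nat.cast_nonneg _) _)))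
  rw [hP, sum_filter, sum_product, mul_sum]
  refine sum_le_sum fun u hu => ?_
  rw [mem_composedUpTo] at hu
  simp only [← sum_filter, sum_const, nsmul_eq_mul]
  rw [mul_left_comm,
    mul_comm _ (u.divisors.card : ℝ)]
  refine mul_le_mul_of_nonneg_left ?_ (Nat.cast_nonneg _)
  -- at most `√(x / u) ≤ (x / u) ^ σ` squares
  have hu0 : (0 : ℝ) < u := Nat.cast_pos.2 hu.1.1
  have hxu : (1 : ℝ) ≤ x / u := by
    rw [one_le_div hu0]
    exact_mod_cast hu.1.2
  have hcard : ((Icc 1 x).filter fun m => u * m ^ 2 ≤ x).card ≤ Nat.sqrt (x / u) := by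
    refine le_trans (card_le_card (t := Icc 1 (Nat.sqrt (x / u))) fun m hm => ?_) (by simp)
    rw [mem_filter, mem_Icc] at hm
    rw [mem_Icc, Nat.le_sqrt', Nat.le_div_iff_mul_le hu.1.1, mul_comm]
    exact ⟨hm.1.1, hm.2⟩
  refine (Nat.cast_le.2 hcard).trans ((Real.nat_sqrt_le_real_sqrt).trans ?_)
  refine (Real.sqrt_le_sqrt Nat.cast_div_le).trans ?_
  rw [Real.sqrt_eq_rpow]
  refine (Real.rpow_le_rpow_of_exponent_le hxu hσ).trans (le_of_eq ?_)
  rw [Real.div_rpow (Nat.cast_nonneg _) hu0.le, Real.rpow_neg hu0.le, div_eq_mul_inv]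

end FA.PrimeResidues

end
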