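import Fermat.Agent.BurgessApplications.Tail
import Fermat.Agent.PrimeResidues.Support
import Mathlib.NumberTheory.AbelSummation
import Mathlib.NumberTheory.Harmonic.Bounds

/-!
# The summatory function of `∑_{d ∣ n} χ d`

For a character `χ` modulo a prime `p` with `|∑_{M < n ≤ M + N} χ n| ≤ N E` for all `N ≥ Y`:
`∑_{n ≤ x} ∑_{d ∣ n} χ d = x L(1, χ) + O (y + x E log)` for every `y` between `Y` and `x`.
-/

set_option autoImplicit false

noncomputable section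

namespace FA.PrimeResidues

open Finset MeasureTheory DirichletCharacter
open FA.Siegel (charSum tail)
open FA.BurgessGeneral (windowSumC windowSumC_add)

variable {p : ℕ} [Fact p.Prime] {χ : DirichletCharacter ℂ p}

theorem sum_inv_mul_eq (χ : DirichletCharacter ℂ p) (y : ℕ) :
    ∑ d ∈ Icc 1 y, χ d / d = charSum χ y / y +
      ∫ t in Set.Ioc (1 : ℝ) y, charSum χ t * (t : ℂ) ^ (-((1 : ℂ) + 1)) := by
  have hd : ∀ t : ℝ, t ≠ 0 →
      HasDerivAt (fun t : ℝ => ((t⁻¹ : ℝ) : ℂ)) ((-(t ^ 2)⁻¹ : ℝ) : ℂ) t :=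
    fun t ht => (hasDerivAt_inv ht).ofReal_comp
  have hc0 : ∀ n : ℕ, ∑ k ∈ Icc 0 n, χ k = ∑ k ∈ Icc 1 n, χ k := fun n => by
    rw [Icc_eq_cons_Ioc (Nat.zero_le n), sum_cons, Nat.cast_zero, MulChar.map_zero, zero_add]
    rfl
  have h := sum_mul_eq_sub_integral_mul₀' (f := fun t : ℝ => ((t⁻¹ : ℝ) : ℂ))
    (fun n : ℕ => χ (n : ZMod p)) (by simpa using MulChar.map_zero χ) y
    (fun t ht => (hd t (by linarith [ht.1])).differentiableAt)
    ((ContinuousOn.congr ((Complex.continuous_ofReal.comp_continuousOn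
      (ContinuousOn.neg (ContinuousOn.inv₀ (f := fun t : ℝ => t ^ 2)
      ((continuous_id.pow 2).continuousOn)
      fun t ht => pow_ne_zero 2 (by linarith [ht.1] : t ≠ 0)))))
      fun t ht => (hd t (by linarith [ht.1])).deriv).integrableOn_Icc)
  rw [Icc_eq_cons_Ioc (Nat.zero_le y), sum_cons, ← Icc_eq_cons_Ioc (Nat.zero_le y), hc0] at h
  simp only [Nat.cast_zero, inv_zero, Complex.ofReal_zero, zero_mul, zero_add] at h
  refine Eq.trans ?_ (h.trans ?_)
  · refine sum_congr rfl fun d _ => ?_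
    push_cast
    rw [mul_comm, div_eq_mul_inv]
  rw [charSum, Nat.floor_natCast, div_eq_mul_inv, mul_comm, sub_eq_add_neg, ← integral_neg]
  congr 1
  · push_cast
    rfl
  refine setIntegral_congr_fun measurableSet_Ioc fun t ht => ?_
  rw [hc0, (hd t (by linarith [ht.1])).deriv, charSum]
  rw [show -((1 : ℂ) + 1) = ((-2 : ℤ) : ℂ) by norm_num, Complex.cpow_intCast, zpow_neg, zpow_ofNat]
  push_cast
  ring

/-- The tail of `L(1, χ)`. -/
theorem norm_LFunction_one_sub_le (hχ : χ ≠ 1) {E : ℝ} (hE : 0 ≤ E) {y : ℕ} (hy : 1 ≤ y)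
    (hS : ∀ N : ℕ, y ≤ N → ‖windowSumC χ 0 N‖ ≤ N * E) :
    ‖LFunction χ 1 - ∑ d ∈ Icc 1 y, χ d / d‖ ≤ E * (1 + 2 * Real.log p) + 1 / p := by
  have hp1 : (1 : ℝ) ≤ p := Nat.one_le_cast.2 (Fact.out : p.Prime).one_lt.le
  have hy1 : (1 : ℝ) ≤ y := Nat.one_le_cast.2 hy
  obtain ⟨P, hP⟩ : ∃ P, P = max (y : ℝ) ((p : ℝ) ^ 2) := ⟨_, rfl⟩
  have hyP : (y : ℝ) ≤ P := hP ▸ le_max_left _ _
  have hpP : (p : ℝ) ^ 2 ≤ P := hP ▸ le_max_right _ _
  have hint := FA.Siegel.integrable_integrand hχ (s := 1) (by simp)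
  have hi : IntegrableOn (fun t : ℝ => charSum χ t * (t : ℂ) ^ (-((1 : ℂ) + 1)))
      (Set.Ioi (y : ℝ)) :=
    hint.mono_set (Set.Ioi_subset_Ioi hy1)
  rw [FA.Siegel.lfunction_eq hχ (by simp), one_mul, sum_inv_mul_eq χ y, tail,
    ← Set.Ioc_union_Ioi_eq_Ioi hy1, setIntegral_union (Set.Ioc_disjoint_Ioi le_rfl)
    measurableSet_Ioi (hint.mono_set Set.Ioc_subset_Ioi_self) hi,
    ← Set.Ioc_union_Ioi_eq_Ioi hyP, setIntegral_union (Set.Ioc_disjoint_Ioi le_rfl)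
    measurableSet_Ioi (hi.mono_set Set.Ioc_subset_Ioi_self)
    (hi.mono_set (Set.Ioi_subset_Ioi hyP))]
  have h0 : ‖charSum χ y / y‖ ≤ E := by
    rw [norm_div, Complex.norm_natCast, div_le_iff₀ (by linarith),
      BurgessApplications.charSum_eq_windowSumC, Nat.floor_natCast, mul_comm]
    exact hS y le_rfl
  have h1 : ‖∫ t in Set.Ioc (y : ℝ) P, charSum χ t * (t : ℂ) ^ (-((1 : ℂ) + 1))‖ ≤
      E * Real.log (P / y) := by
    refine BurgessApplications.norm_piece_le (e := 1) (by linarith) hyP (fun t ht => ?_) (by simp)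
    have ht0 : 0 < t := lt_of_lt_of_le (by linarith) ht.1.le
    rw [BurgessApplications.charSum_eq_windowSumC, Real.rpow_one, mul_comm]
    exact (hS _ (Nat.le_floor ht.1.le)).trans
      (mul_le_mul_of_nonneg_right (Nat.floor_le ht0.le) hE)
  have h2 : ‖∫ t in Set.Ioi P, charSum χ t * (t : ℂ) ^ (-((1 : ℂ) + 1))‖ ≤ 1 / p := by
    refine (BurgessApplications.norm_beyond_le (by linarith) (by simp)
      fun t _ => FA.Siegel.norm_charSum_le hχ t).trans ?_
    rw [Complex.one_re, Real.rpow_neg_one, div_one, mul_inv_le_iff₀ (by linarith)]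
    refine le_trans (le_of_eq ?_) (mul_le_mul_of_nonneg_left hpP (by positivity))
    field_simp
  have hlog : Real.log (P / y) ≤ 2 * Real.log p := by
    rw [show 2 * Real.log p = Real.log ((p : ℝ) ^ 2) by rw [Real.log_pow]; norm_num]
    refine Real.log_le_log (div_pos (by linarith) (by linarith)) ?_
    rw [div_le_iff₀ (by linarith), hP]
    exact max_le (le_mul_of_one_le_left (by linarith) (one_le_pow₀ hp1))
      (le_mul_of_one_le_right (by positivity) hy1)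
  have h3 := mul_le_mul_of_nonneg_left hlog hE
  obtain ⟨a, ha⟩ : ∃ a, a = ∫ t in Set.Ioc (1 : ℝ) y, charSum χ t * (t : ℂ) ^ (-((1 : ℂ) + 1)) :=
    ⟨_, rfl⟩
  obtain ⟨b, hb⟩ : ∃ b, b = ∫ t in Set.Ioc (y : ℝ) P, charSum χ t * (t : ℂ) ^ (-((1 : ℂ) + 1)) :=
    ⟨_, rfl⟩
  obtain ⟨c, hc⟩ : ∃ c, c = ∫ t in Set.Ioi P, charSum χ t * (t : ℂ) ^ (-((1 : ℂ) + 1)) := ⟨_, rfl⟩
  rw [← ha, ← hb, ← hc, show a + (b + c) - (charSum χ y / y + a) = b + c - charSum χ y / y by ring]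
  rw [← hb] at h1
  rw [← hc] at h2
  exact (norm_sub_le _ _).trans (by linarith [norm_add_le b c])

theorem sum_splitCoeff_eq (χ : DirichletCharacter ℂ p) (x : ℕ) :
    ∑ n ∈ Icc 1 x, splitCoeff χ n = ∑ d ∈ Icc 1 x, (χ (d : ZMod p)).re * (x / d : ℕ) := by
  calc ∑ n ∈ Icc 1 x, splitCoeff χ n
      = ∑ n ∈ Icc 1 x, ∑ d ∈ (Icc 1 x).filter (· ∣ n), (χ (d : ZMod p)).re := by
        refine sum_congr rfl fun n hn => ?_
        rw [mem_Icc] at hn
        rw [splitCoeff_apply]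
        refine sum_congr ?_ fun _ _ => rfl
        ext d
        simp only [Nat.mem_divisors, mem_filter, mem_Icc]
        exact ⟨fun h => ⟨⟨Nat.pos_of_dvd_of_pos h.1 hn.1, (Nat.le_of_dvd hn.1 h.1).trans hn.2⟩,
          h.1⟩, fun h => ⟨h.2, by omega⟩⟩
    _ = ∑ d ∈ Icc 1 x, (χ (d : ZMod p)).re * (x / d : ℕ) := by
        simp only [sum_filter]
        rw [sum_comm]
        refine sum_congr rfl fun d _ => ?_
        rw [← sum_filter, sum_const, nsmul_eq_mul, mul_comm,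
          ← Nat.Ioc_filter_dvd_card_eq_div x d]
        rfl

/-- The piece with `y < d ≤ x`. -/
theorem abs_sum_large_le {E : ℝ} (hE : 0 ≤ E) {y x : ℕ} (hy : 1 ≤ y) (hyx : y ≤ x)
    (hS : ∀ N : ℕ, y ≤ N → ‖windowSumC χ 0 N‖ ≤ N * E) :
    |∑ d ∈ Ioc y x, (χ (d : ZMod p)).re * (x / d : ℕ)| ≤
      2 * E * x * (1 + Real.log (x / y)) := by
  have hM : 1 ≤ x / y := (Nat.one_le_div_iff hy).2 hyx
  have heq : ∑ d ∈ Ioc y x, (χ (d : ZMod p)).re * (x / d : ℕ) =
      ∑ m ∈ Icc 1 (x / y), (windowSumC χ y (x / m - y)).re := by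
    have hwin : ∀ m ∈ Icc 1 (x / y), (windowSumC χ y (x / m - y)).re =
        ∑ d ∈ Ioc y x, if m * d ≤ x then (χ (d : ZMod p)).re else 0 := fun m hm => by
      rw [mem_Icc] at hm
      have hym : y ≤ x / m := by
        rw [Nat.le_div_iff_mul_le hm.1, mul_comm, ← Nat.le_div_iff_mul_le hy]
        exact hm.2
      rw [windowSumC, Complex.re_sum, Nat.add_sub_cancel' hym, ← sum_filter]
      refine sum_congr ?_ fun _ _ => rfl
      ext d
      simp only [mem_filter, mem_Ioc, Nat.le_div_iff_mul_le hm.1, mul_comm d m]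
      exact ⟨fun h => ⟨⟨h.1, (Nat.le_mul_of_pos_left d hm.1).trans h.2⟩, h.2⟩,
        fun h => ⟨h.1.1, h.2⟩⟩
    rw [sum_congr rfl hwin, sum_comm]
    refine sum_congr rfl fun d hd => ?_
    rw [mem_Ioc] at hd
    rw [← sum_filter, sum_const, nsmul_eq_mul, mul_comm]
    congr 1
    rw [Nat.cast_inj]
    have : (Icc 1 (x / y)).filter (fun m => m * d ≤ x) = Icc 1 (x / d) := by
      ext m
      simp only [mem_filter, mem_Icc, ← Nat.le_div_iff_mul_le (show 0 < d by omega)]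
      exact ⟨fun h => ⟨h.1.1, h.2⟩,
        fun h => ⟨⟨h.1, h.2.trans (Nat.div_le_div_left hd.1.le hy)⟩, h.2⟩⟩
    rw [this, Nat.card_Icc, Nat.add_sub_cancel]
  rw [heq]
  refine (abs_sum_le_sum_abs _ _).trans ((sum_le_sum (g := fun m : ℕ => 2 * E * x * (m : ℝ)⁻¹)
    fun m hm => ?_).trans ?_)
  · rw [mem_Icc] at hm
    have hym : y ≤ x / m := by
      rw [Nat.le_div_iff_mul_le hm.1, mul_comm, ← Nat.le_div_iff_mul_le hy]
      exact hm.2
    refine (Complex.abs_re_le_norm _).trans ?_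
    have h1 := windowSumC_add (χ := χ) 0 y (x / m - y)
    rw [Nat.add_sub_cancel' hym, zero_add] at h1
    have h2 := hS _ hym
    have h3 := hS y le_rfl
    have h4 : ((y : ℕ) : ℝ) ≤ ((x / m : ℕ) : ℝ) := Nat.cast_le.2 hym
    have h5 := mul_le_mul_of_nonneg_right h4 hE
    have h6 := mul_le_mul_of_nonneg_right (Nat.cast_div_le (α := ℝ) (m := x) (n := m)) hE
    rw [eq_sub_of_add_eq' h1.symm]
    refine (norm_sub_le _ _).trans ?_
    rw [div_eq_mul_inv] at h6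
    linarith
  · rw [← mul_sum]
    refine mul_le_mul_of_nonneg_left ?_ (by positivity)
    have h := harmonic_le_one_add_log (x / y)
    rw [harmonic_eq_sum_Icc] at h
    push_cast at h
    exact h.trans (add_le_add le_rfl (Real.log_le_log (Nat.cast_pos.2 hM) Nat.cast_div_le))

/-- **The asymptotic formula.** -/
theorem abs_sum_splitCoeff_sub_le (hχ : χ ≠ 1) {E : ℝ} (hE : 0 ≤ E) {y x : ℕ} (hy : 1 ≤ y)
    (hyx : y ≤ x) (hS : ∀ N : ℕ, y ≤ N → ‖windowSumC χ 0 N‖ ≤ N * E) :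
    |∑ n ∈ Icc 1 x, splitCoeff χ n - x * (LFunction χ 1).re| ≤
      y + x * (2 * E * (1 + Real.log (x / y)) + E * (1 + 2 * Real.log p) + 1 / p) := by
  rw [sum_splitCoeff_eq, ← Ico_add_one_right_eq_Icc,
    ← sum_Ico_consecutive _ (show 1 ≤ y + 1 by omega) (by omega : y + 1 ≤ x + 1),
    Ico_add_one_right_eq_Icc, Ico_add_one_add_one_eq_Ioc]
  have hlarge := abs_sum_large_le hE hy hyx hS
  have hsmall : |∑ d ∈ Icc 1 y, (χ (d : ZMod p)).re * (x / d : ℕ) -
      x * (∑ d ∈ Icc 1 y, χ (d : ZMod p) / d).re| ≤ y := by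
    rw [Complex.re_sum, mul_sum, ← sum_sub_distrib]
    refine (abs_sum_le_sum_abs _ _).trans ((sum_le_sum (g := fun _ : ℕ => (1 : ℝ))
      fun d hd => ?_).trans (by simp))
    rw [mem_Icc] at hd
    have hd0 : (0 : ℝ) < d := Nat.cast_pos.2 hd.1
    rw [Complex.div_natCast_re, mul_div, mul_comm (x : ℝ), ← mul_div, ← mul_sub, abs_mul]
    refine mul_le_one₀ ((Complex.abs_re_le_norm _).trans (χ.norm_le_one _)) (abs_nonneg _) ?_
    rw [← Nat.floor_div_eq_div (K := ℝ), abs_sub_comm,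
      abs_of_nonneg (sub_nonneg.2 (Nat.floor_le (by positivity)))]
    linarith [Nat.lt_floor_add_one ((x : ℝ) / d)]
  have htail := (Complex.abs_re_le_norm _).trans (norm_LFunction_one_sub_le hχ hE hy hS)
  rw [Complex.sub_re] at htail
  have htail2 := mul_le_mul_of_nonneg_left htail (Nat.cast_nonneg (α := ℝ) x)
  obtain ⟨hs1, hs2⟩ := abs_le.1 hsmall
  obtain ⟨hl1, hl2⟩ := abs_le.1 hlarge
  have hab := abs_mul (x : ℝ) ((LFunction χ 1).re - (∑ d ∈ Icc 1 y, χ (d : ZMod p) / d).re)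
  rw [Nat.abs_cast] at hab
  rw [← hab] at htail2
  obtain ⟨ht1, ht2⟩ := abs_le.1 htail2
  rw [abs_le]
  constructor <;> linarith

end FA.PrimeResidues

end
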