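import Fermat.Agent.PrimeResidues.DivisorSum
import Fermat.Agent.Tau.SiegelTheorem
import Mathlib.NumberTheory.LegendreSymbol.Basic

/-!
# Many small prime quadratic residues

The sum of `∑_{d ∣ n} (d / p)` up to `x = p ^ (1/4 + ε)` is `x L(1, χ) + O (x p ^ (-δ))` by Burgess,
so at least `x p ^ (-ε')` by Siegel; it is `O (x ^ σ p ^ (o 1))` if only `(log p) ^ A` primes below
`x` are residues.
-/

set_option autoImplicit false

noncomputable section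

namespace FA.PrimeResidues

open Finset Filter DirichletCharacter
open scoped Topology

/-- **The asymptotic formula, for large moduli.** -/
theorem eventually_asymptotic {ε : ℝ} (hε : 0 < ε) :
    ∃ δ : ℝ, 0 < δ ∧ ∀ᶠ p : ℕ in atTop, ∀ [Fact p.Prime] (χ : DirichletCharacter ℂ p), χ ≠ 1 →
      ∀ x : ℕ, (p : ℝ) ^ (1 / 4 + ε) ≤ x →
        |∑ n ∈ Icc 1 x, splitCoeff χ n - x * (LFunction χ 1).re| ≤ x * (p : ℝ) ^ (-δ) := by
  obtain ⟨κ, hκ⟩ : ∃ κ, κ = min ε 1 / 2 := ⟨_, rfl⟩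
  have hκ0 : 0 < κ := hκ ▸ half_pos (lt_min hε one_pos)
  have hκε : κ ≤ ε / 2 := hκ ▸ by gcongr; exact min_le_left _ _
  have hκ1 : κ ≤ 1 / 2 := hκ ▸ by gcongr; exact min_le_right _ _
  obtain ⟨η, hη, hsave⟩ := BurgessGeneral.eventually_norm_windowSumC_le
    (show 0 < ε / 4 by linarith)
  obtain ⟨δ, hδ⟩ : ∃ δ, δ = min κ η / 2 := ⟨_, rfl⟩
  have hδ0 : 0 < δ := hδ ▸ half_pos (lt_min hκ0 hη)
  have hδκ : δ * 2 ≤ κ := hδ ▸ by rw [div_mul_cancel₀ _ two_ne_zero]; exact min_le_left _ _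
  have hδη : δ * 2 ≤ η := hδ ▸ by rw [div_mul_cancel₀ _ two_ne_zero]; exact min_le_right _ _
  refine ⟨δ, hδ0, ?_⟩
  have hbig : ∀ᶠ p : ℕ in atTop, 6 + 8 / δ ≤ (p : ℝ) ^ (δ / 2) :=
    ((tendsto_rpow_atTop (half_pos hδ0)).comp tendsto_natCast_atTop_atTop).eventually_ge_atTop _
  filter_upwards [hsave, hbig] with p hs hbig
  intro _ χ hχ x hx
  have hp1 : (1 : ℝ) ≤ p := Nat.one_le_cast.2 (Fact.out : p.Prime).one_lt.le
  have hp0 : (0 : ℝ) < p := by linarith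
  have hx1 : (1 : ℝ) ≤ x := (Real.one_le_rpow hp1 (by linarith)).trans hx
  have hu : (p : ℝ) ^ (1 / 4 + ε / 4) ≤ x * (p : ℝ) ^ (-κ) := by
    refine le_trans ?_ (mul_le_mul_of_nonneg_right hx (by positivity))
    rw [← Real.rpow_add hp0]
    exact Real.rpow_le_rpow_of_exponent_le hp1 (by linarith)
  obtain ⟨y, hy⟩ : ∃ y : ℕ, y = ⌈(x : ℝ) * (p : ℝ) ^ (-κ)⌉₊ := ⟨_, rfl⟩
  have hu1 : (1 : ℝ) ≤ x * (p : ℝ) ^ (-κ) :=
    (Real.one_le_rpow hp1 (by linarith)).trans hu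
  have hyl : (x : ℝ) * (p : ℝ) ^ (-κ) ≤ y := hy ▸ Nat.le_ceil _
  have hyu : (y : ℝ) ≤ 2 * (x * (p : ℝ) ^ (-κ)) := by
    have := (Nat.ceil_lt_add_one (zero_le_one.trans hu1)).le
    rw [← hy] at this
    linarith
  have hy1 : 1 ≤ y := by exact_mod_cast hu1.trans hyl
  have hyx : y ≤ x := hy ▸ Nat.ceil_le.2
    (mul_le_of_le_one_right (Nat.cast_nonneg _) (Real.rpow_le_one_of_one_le_of_nonpos hp1
      (by linarith)))
  have hL : 0 ≤ Real.log p := Real.log_nonneg hp1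
  refine (abs_sum_splitCoeff_sub_le hχ (E := (p : ℝ) ^ (-η)) (by positivity) hy1 hyx
    fun N hN => hs χ hχ 0 N ((hu.trans hyl).trans (Nat.cast_le.2 hN))).trans ?_
  obtain ⟨P, hP⟩ : ∃ P, P = (p : ℝ) ^ (-(δ * 2)) := ⟨_, rfl⟩
  have hP0 : 0 ≤ P := hP ▸ by positivity
  have hκP : (p : ℝ) ^ (-κ) ≤ P := hP ▸ Real.rpow_le_rpow_of_exponent_le hp1 (by linarith)
  have hηP : (p : ℝ) ^ (-η) ≤ P := hP ▸ Real.rpow_le_rpow_of_exponent_le hp1 (by linarith)
  have hpP : 1 / (p : ℝ) ≤ P := by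
    rw [hP, one_div, ← Real.rpow_neg_one]
    exact Real.rpow_le_rpow_of_exponent_le hp1 (by linarith)
  have hlog : Real.log ((x : ℝ) / y) ≤ Real.log p := by
    refine Real.log_le_log (div_pos (by linarith) (Nat.cast_pos.2 hy1)) ?_
    rw [div_le_iff₀ (Nat.cast_pos.2 hy1)]
    refine le_trans ?_ (mul_le_mul_of_nonneg_left hyl hp0.le)
    refine le_trans (le_of_eq ?_) (mul_le_mul_of_nonneg_right
      (Real.rpow_le_rpow_of_exponent_le hp1 (show κ ≤ 1 by linarith))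
      (show 0 ≤ (x : ℝ) * (p : ℝ) ^ (-κ) by positivity) |>.trans (le_of_eq (by rw [Real.rpow_one])))
    rw [Real.rpow_neg hp0.le]
    field_simp
  have h1 : 0 ≤ Real.log ((x : ℝ) / y) :=
    Real.log_nonneg ((one_le_div (Nat.cast_pos.2 hy1)).2 (Nat.cast_le.2 hyx))
  have h2 : 2 * (p : ℝ) ^ (-η) * (1 + Real.log (x / y)) +
      (p : ℝ) ^ (-η) * (1 + 2 * Real.log p) + 1 / p + 2 * (p : ℝ) ^ (-κ) ≤
        (6 + 4 * Real.log p) * P := by
    have e1 := mul_le_mul (mul_le_mul_of_nonneg_left hηP two_pos.le)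
      (show 1 + Real.log ((x : ℝ) / y) ≤ 1 + Real.log p by linarith) (by linarith) (by linarith)
    have e2 := mul_le_mul_of_nonneg_right hηP (show 0 ≤ 1 + 2 * Real.log p by linarith)
    linarith
  have h3 : 6 + 4 * Real.log p ≤ (p : ℝ) ^ δ := by
    have e1 := Real.log_le_rpow_div hp0.le (half_pos hδ0)
    have e2 : 1 ≤ (p : ℝ) ^ (δ / 2) := Real.one_le_rpow hp1 (by linarith)
    have e3 := mul_le_mul_of_nonneg_right hbig (zero_le_one.trans e2)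
    rw [← Real.rpow_add hp0, add_halves, add_mul] at e3
    have e4 : 4 * ((p : ℝ) ^ (δ / 2) / (δ / 2)) = 8 / δ * (p : ℝ) ^ (δ / 2) := by ring
    linarith
  have h4 := mul_le_mul_of_nonneg_right h3 hP0
  rw [hP, ← Real.rpow_add hp0, show δ + -(δ * 2) = -δ by ring, ← hP] at h4
  have h5 := mul_le_mul_of_nonneg_left (h2.trans h4) (Nat.cast_nonneg (α := ℝ) x)
  linarith

/-- The quadratic character with values in `ℂ`. -/
def quadChar (p : ℕ) [Fact p.Prime] : DirichletCharacter ℂ p :=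
  (quadraticChar (ZMod p)).ringHomComp (Int.castRingHom ℂ)

theorem quadChar_apply (p : ℕ) [Fact p.Prime] (n : ℕ) :
    quadChar p (n : ZMod p) = ((legendreSym p (n : ℤ) : ℤ) : ℂ) := by
  rw [quadChar, MulChar.ringHomComp_apply, legendreSym, Int.cast_natCast]
  rfl

theorem quadChar_ne_one {p : ℕ} [Fact p.Prime] (hp2 : p ≠ 2) : quadChar p ≠ 1 :=
  (MulChar.ringHomComp_ne_one_iff Int.cast_injective).2
    (quadraticChar_ne_one (by rwa [ZMod.ringChar_zmod_n]))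

theorem quadChar_sq (p : ℕ) [Fact p.Prime] : quadChar p ^ 2 = 1 :=
  ((quadraticChar_isQuadratic (ZMod p)).comp _).sq_eq_one

/-- The small prime quadratic residues. -/
def residuesBelow (p : ℕ) [Fact p.Prime] (x : ℕ) : Finset ℕ :=
  (Icc 1 x).filter fun ℓ => ℓ.Prime ∧ legendreSym p (ℓ : ℤ) = 1

theorem residuePrimes_quadChar (p : ℕ) [Fact p.Prime] (x : ℕ) :
    residuePrimes (quadChar p) x = residuesBelow p x := by
  refine filter_congr fun ℓ _ => ?_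
  rw [quadChar_apply, Int.cast_eq_one]

theorem eventually_many_aux {ε B : ℝ} (hε : 0 < ε) (hε1 : ε ≤ 1 / 4) (hB : 0 ≤ B) :
    ∀ᶠ p : ℕ in atTop, ∀ [Fact p.Prime],
      Real.log p ^ B ≤ (residuesBelow p ⌊(p : ℝ) ^ (1 / 4 + ε)⌋₊).card := by
  obtain ⟨τ, hτ⟩ : ∃ τ, τ = 1 / (2 * (B + 1)) := ⟨_, rfl⟩
  have hτ0 : 0 < τ := hτ ▸ by positivity
  have hBτ : B * τ + τ = 1 / 2 := by
    rw [hτ]
    field_simp
  have hτ1 : τ ≤ 1 / 2 := by linarith [mul_nonneg hB hτ0.le]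
  obtain ⟨δ, hδ, hasymp⟩ := eventually_asymptotic (half_pos hε)
  obtain ⟨κ, hκ⟩ : ∃ κ, κ = τ / 16 := ⟨_, rfl⟩
  obtain ⟨e, he⟩ : ∃ e, e = min δ κ / 2 := ⟨_, rfl⟩
  have he0 : 0 < e := he ▸ half_pos (lt_min hδ (by linarith))
  have heδ : e * 2 ≤ δ := he ▸ by rw [div_mul_cancel₀ _ two_ne_zero]; exact min_le_left _ _
  have heκ : e * 2 ≤ κ := he ▸ by rw [div_mul_cancel₀ _ two_ne_zero]; exact min_le_right _ _
  obtain ⟨C, hC0, hC⟩ := FA.Siegel.siegel e he0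
  have hlogp : Tendsto (fun p : ℕ => Real.log p) atTop atTop :=
    Real.tendsto_log_atTop.comp tendsto_natCast_atTop_atTop
  have hsmall : ∀ᶠ p : ℕ in atTop, (p : ℝ) ^ (-e) < C / 2 :=
    ((tendsto_rpow_neg_atTop he0).comp tendsto_natCast_atTop_atTop).eventually
      (eventually_lt_nhds (half_pos hC0))
  have htwo : ∀ᶠ p : ℕ in atTop, 2 ≤ (p : ℝ) ^ (ε / 2) :=
    ((tendsto_rpow_atTop (half_pos hε)).comp tendsto_natCast_atTop_atTop).eventually_ge_atTop _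
  filter_upwards [hasymp, hsmall, htwo, hlogp.eventually_ge_atTop ((16 / (τ * κ)) ^ 2),
    eventually_ge_atTop 3] with p hasymp hsmall htwo hbig hp3
  intro _
  have hp1 : (1 : ℝ) ≤ p := Nat.one_le_cast.2 (by omega)
  have hp0 : (0 : ℝ) < p := by linarith
  obtain ⟨x, hx⟩ : ∃ x, x = ⌊(p : ℝ) ^ (1 / 4 + ε)⌋₊ := ⟨_, rfl⟩
  obtain ⟨u, hu⟩ : ∃ u, u = (p : ℝ) ^ (1 / 4 + ε) := ⟨_, rfl⟩
  have hxu : (x : ℝ) ≤ u := hu ▸ hx ▸ Nat.floor_le (by positivity)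
  have hxl : (p : ℝ) ^ (1 / 4 + ε / 2) ≤ x := by
    have h1 : (p : ℝ) ^ (1 / 4 + ε / 2) * 2 ≤ u := by
      rw [hu, show (1 / 4 + ε : ℝ) = 1 / 4 + ε / 2 + ε / 2 by ring,
        Real.rpow_add hp0 (1 / 4 + ε / 2)]
      exact mul_le_mul_of_nonneg_left htwo (by positivity)
    have h2 : u < x + 1 := by
      rw [hu, hx]
      exact Nat.lt_floor_add_one _
    linarith [Real.one_le_rpow hp1 (show 0 ≤ 1 / 4 + ε / 2 by linarith)]
  have hxp : x < p := by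
    rw [← Nat.cast_lt (α := ℝ)]
    refine hxu.trans_lt ?_
    conv_rhs => rw [← Real.rpow_one (p : ℝ)]
    exact hu ▸ Real.rpow_lt_rpow_of_exponent_lt (Nat.one_lt_cast.2 (by omega)) (by linarith)
  have hx0 : (0 : ℝ) < x := lt_of_lt_of_le (by positivity) hxl
  rw [← hx]
  by_contra hcard
  rw [not_le] at hcard
  obtain ⟨ℓ, hℓ⟩ : ∃ ℓ, ℓ = Real.log (p : ℝ) := ⟨_, rfl⟩
  rw [← hℓ] at hbig hcard
  have hℓ1 : 1 ≤ ℓ := by
    rw [hℓ, Real.le_log_iff_exp_le hp0]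
    linarith [Real.exp_one_lt_d9, show (3 : ℝ) ≤ p from Nat.ofNat_le_cast.2 hp3]
  have hexp : 16 / τ * ((residuesBelow p x).card : ℝ) ^ τ ≤ κ * ℓ := by
    have h1 : ((residuesBelow p x).card : ℝ) ^ τ ≤ ℓ ^ ((1 : ℝ) / 2) := by
      refine (Real.rpow_le_rpow (Nat.cast_nonneg _) hcard.le hτ0.le).trans ?_
      rw [← Real.rpow_mul (by linarith)]
      exact Real.rpow_le_rpow_of_exponent_le hℓ1 (by linarith)
    rw [← Real.sqrt_eq_rpow] at h1
    have h2 : 16 / (τ * κ) ≤ Real.sqrt ℓ :=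
      Real.le_sqrt_of_sq_le hbig
    rw [div_le_iff₀ (mul_pos hτ0 (by linarith))] at h2
    have h3 := mul_le_mul_of_nonneg_right h2 (Real.sqrt_nonneg ℓ)
    have h4 := mul_le_mul_of_nonneg_left h1 (show 0 ≤ 16 / τ by positivity)
    refine h4.trans ?_
    rw [div_mul_eq_mul_div, div_le_iff₀ hτ0]
    refine h3.trans (le_of_eq ?_)
    linear_combination (τ * κ) * Real.mul_self_sqrt (show 0 ≤ ℓ by linarith)
  have hupper : ∑ n ∈ Icc 1 x, splitCoeff (quadChar p) n ≤ x * (p : ℝ) ^ (-(e * 2)) := by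
    refine (sum_splitCoeff_le (quadChar_sq p) (fun q hq hqx => ?_) (σ := 1 - τ) (by linarith)
      (by linarith)).trans ?_
    · exact ((Burgess.natCast_ne_zero_of_lt hq.one_le (hqx.trans_lt hxp)).isUnit.map _).ne_zero
    rw [residuePrimes_quadChar, sub_sub_cancel]
    refine (mul_le_mul_of_nonneg_left (Real.exp_le_exp.2 hexp) (by positivity)).trans ?_
    rw [Real.rpow_sub hx0, Real.rpow_one, hℓ, mul_comm κ, ← Real.rpow_def_of_pos hp0,
      div_mul_eq_mul_div, mul_div_assoc]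
    refine mul_le_mul_of_nonneg_left ?_ hx0.le
    rw [div_le_iff₀ (by positivity)]
    refine le_trans ?_ (mul_le_mul_of_nonneg_left (Real.rpow_le_rpow (by positivity)
      ((Real.rpow_le_rpow_of_exponent_le hp1 (show (1 : ℝ) / 4 ≤ 1 / 4 + ε / 2 by linarith)).trans
        hxl) hτ0.le) (by positivity))
    rw [← Real.rpow_mul hp0.le, ← Real.rpow_add hp0]
    exact Real.rpow_le_rpow_of_exponent_le hp1 (by linarith)
  have hp2 : p ≠ 2 := by omega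
  have hlow := (abs_le.1 (hasymp (quadChar p) (quadChar_ne_one hp2) x hxl)).1
  have hsiegel := mul_le_mul_of_nonneg_left
    (hC p (quadChar p) (quadChar_ne_one hp2) (quadChar_sq p)) hx0.le
  have h1 : (p : ℝ) ^ (-δ) ≤ (p : ℝ) ^ (-(e * 2)) :=
    Real.rpow_le_rpow_of_exponent_le hp1 (by linarith)
  have h2 : (p : ℝ) ^ (-(e * 2)) = (p : ℝ) ^ (-e) * (p : ℝ) ^ (-e) := by
    rw [← Real.rpow_add hp0]
    congr 1
    ring
  have h3 := mul_lt_mul_of_pos_right hsmall (show (0 : ℝ) < (p : ℝ) ^ (-e) by positivity)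
  have h4 : 2 * (p : ℝ) ^ (-(e * 2)) < C * (p : ℝ) ^ (-e) := by linarith
  have h5 := mul_lt_mul_of_pos_left h4 hx0
  have h6 := mul_le_mul_of_nonneg_left h1 hx0.le
  linarith

/-- **Pollack's theorem.** -/
theorem eventually_many {ε : ℝ} (hε : 0 < ε) (A : ℝ) :
    ∀ᶠ p : ℕ in atTop, ∀ [Fact p.Prime],
      Real.log p ^ A ≤ (residuesBelow p ⌊(p : ℝ) ^ (1 / 4 + ε)⌋₊).card := by
  filter_upwards [eventually_many_aux (lt_min hε (show (0 : ℝ) < 1 / 4 by norm_num))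
    (min_le_right _ _) (le_max_right A 0), eventually_ge_atTop 3] with p h hp3
  intro _
  have hp1 : (1 : ℝ) ≤ p := Nat.one_le_cast.2 (by omega)
  have hℓ1 : 1 ≤ Real.log p := by
    rw [Real.le_log_iff_exp_le (by linarith)]
    linarith [Real.exp_one_lt_d9, show (3 : ℝ) ≤ p from Nat.ofNat_le_cast.2 hp3]
  refine (Real.rpow_le_rpow_of_exponent_le hℓ1 (le_max_left A 0)).trans
    (h.trans (Nat.cast_le.2 (card_le_card (filter_subset_filter _
      (Icc_subset_Icc_right (Nat.floor_mono ?_))))))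
  exact Real.rpow_le_rpow_of_exponent_le hp1 (by linarith [min_le_left ε (1 / 4)])

end FA.PrimeResidues

end
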