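import Fermat.Agent.RankinGaps.Smooth
import Fermat.Agent.ErdosTetali.Sums

/-!
# Rankin's trick for numbers composed of few primes

If `S` is a set of `k` primes then the numbers composed of primes of `S` have
`∑ n ^ (-σ) ≤ exp (O (k ^ (1 - σ)))` for `1/2 ≤ σ < 1`.
-/

set_option autoImplicit false

noncomputable section

namespace FA.PrimeResidues

open Finset

theorem inv_one_sub_le_exp_four {r : ℝ} (h0 : 0 ≤ r) (h1 : r ≤ 3 / 4) :
    (1 - r)⁻¹ ≤ Real.exp (4 * r) := by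
  refine le_trans ?_ (Real.add_one_le_exp _)
  rw [inv_le_iff_one_le_mul₀ (by linarith)]
  nlinarith [mul_nonneg h0 (show 0 ≤ 3 - 4 * r by linarith)]

theorem prime_rpow_neg_le {ℓ : ℕ} (hℓ : ℓ.Prime) {σ : ℝ} (hσ : 1 / 2 ≤ σ) :
    (ℓ : ℝ) ^ (-σ) ≤ 3 / 4 := by
  refine (Real.rpow_le_rpow_of_nonpos two_pos (Nat.ofNat_le_cast.2 hℓ.two_le)
    (by linarith)).trans ((Real.rpow_le_rpow_of_exponent_le one_le_two
      (show -σ ≤ -(1 / 2) by linarith)).trans ?_)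
  rw [Real.rpow_neg two_pos.le, ← Real.sqrt_eq_rpow, inv_le_comm₀ (by positivity) (by norm_num)]
  exact Real.le_sqrt_of_sq_le (by norm_num)

/-- Among `k` positive integers, `∑ ℓ ^ (-σ) ≤ 2 k ^ (1 - σ) / (1 - σ)`. -/
theorem sum_rpow_neg_le_card (S : Finset ℕ) (hS : ∀ ℓ ∈ S, 1 ≤ ℓ) {σ : ℝ} (hσ0 : 0 ≤ σ)
    (hσ1 : σ < 1) :
    ∑ ℓ ∈ S, (ℓ : ℝ) ^ (-σ) ≤ 2 / (1 - σ) * (S.card : ℝ) ^ (1 - σ) := by
  rcases S.eq_empty_or_nonempty with rfl | hne
  · simp [Real.zero_rpow (show 1 - σ ≠ 0 by linarith)]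
  obtain ⟨k, hk⟩ : ∃ k, k = S.card := ⟨_, rfl⟩
  have hk1 : 1 ≤ k := hk ▸ hne.card_pos
  rw [← hk, ← sum_filter_add_sum_filter_not S fun ℓ => ℓ ≤ k]
  have h1 : ∑ ℓ ∈ S with ℓ ≤ k, (ℓ : ℝ) ^ (-σ) ≤ (1 - σ)⁻¹ * (k : ℝ) ^ (1 - σ) := by
    refine le_trans ?_ (ErdosTetali.sum_rpow_le (by linarith) (by linarith) k)
    refine (sum_le_sum_of_subset_of_nonneg (t := Ico 1 (k + 1)) (fun ℓ hℓ => ?_)
      fun _ _ _ => by positivity).trans (le_of_eq ?_)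
    · rw [mem_filter] at hℓ
      exact mem_Ico.2 ⟨hS ℓ hℓ.1, by omega⟩
    · rw [sum_Ico_eq_sum_range, Nat.add_sub_cancel]
      refine sum_congr rfl fun i _ => ?_
      push_cast
      ring_nf
  have h2 : ∑ ℓ ∈ S with ¬ ℓ ≤ k, (ℓ : ℝ) ^ (-σ) ≤ (k : ℝ) ^ (1 - σ) := by
    refine (sum_le_sum fun ℓ hℓ => Real.rpow_le_rpow_of_nonpos (Nat.cast_pos.2 hk1)
      (Nat.cast_le.2 (not_le.1 (mem_filter.1 hℓ).2).le) (by linarith)).trans ?_
    rw [sum_const, nsmul_eq_mul, Real.rpow_sub (Nat.cast_pos.2 hk1), Real.rpow_one, div_eq_mul_inv,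
      ← Real.rpow_neg (Nat.cast_nonneg k)]
    exact mul_le_mul_of_nonneg_right (Nat.cast_le.2 (hk ▸ card_filter_le _ _)) (by positivity)
  have h3 : (k : ℝ) ^ (1 - σ) ≤ (1 - σ)⁻¹ * (k : ℝ) ^ (1 - σ) :=
    le_mul_of_one_le_left (by positivity) ((one_le_inv₀ (by linarith)).2 (by linarith))
  rw [div_mul_eq_mul_div, div_eq_inv_mul]
  linarith

/-- The numbers up to `x` composed of primes of `S`. -/
def composedUpTo (S : Finset ℕ) (x : ℕ) : Finset ℕ :=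
  (Icc 1 x).filter (· ∈ Nat.factoredNumbers S)

theorem mem_composedUpTo {S : Finset ℕ} {x n : ℕ} :
    n ∈ composedUpTo S x ↔ (1 ≤ n ∧ n ≤ x) ∧ n ∈ Nat.factoredNumbers S := by
  simp [composedUpTo]

/-- The Euler product. -/
theorem sum_composed_rpow_le (S : Finset ℕ) (hS : ∀ ℓ ∈ S, Nat.Prime ℓ) (x : ℕ) {σ : ℝ}
    (hσ : 1 / 2 ≤ σ) :
    ∑ n ∈ composedUpTo S x, (n : ℝ) ^ (-σ) ≤ Real.exp (4 * ∑ ℓ ∈ S, (ℓ : ℝ) ^ (-σ)) := by
  classical
  have hσ0 : 0 < σ := by linarith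
  have hmem : ∀ n ∈ composedUpTo S x, n ∈ Nat.factoredNumbers S := fun n hn =>
    (mem_composedUpTo.1 hn).2
  have h := (EulerProduct.summable_and_hasSum_factoredNumbers_prod_filter_prime_geometric
    (f := (RankinGaps.rpowNegHom σ hσ0.ne').toMonoidHom) (fun {q} hq => ?_) S).2
  · rw [filter_eq_self.2 hS] at h
    calc ∑ n ∈ composedUpTo S x, (n : ℝ) ^ (-σ)
        = ∑ m ∈ (composedUpTo S x).subtype (fun n => n ∈ Nat.factoredNumbers S),
            ((m : ℕ) : ℝ) ^ (-σ) :=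
          (sum_subtype_of_mem (fun n : ℕ => (n : ℝ) ^ (-σ)) hmem).symm
      _ ≤ ∏ ℓ ∈ S, (1 - (ℓ : ℝ) ^ (-σ))⁻¹ :=
          sum_le_hasSum _ (fun m _ => Real.rpow_nonneg (Nat.cast_nonneg (m : ℕ)) _) h
      _ ≤ _ := by
          rw [mul_sum, Real.exp_sum]
          refine prod_le_prod (fun ℓ hℓ => ?_) fun ℓ hℓ =>
            inv_one_sub_le_exp_four (by positivity) (prime_rpow_neg_le (hS ℓ hℓ) hσ)
          have := prime_rpow_neg_le (hS ℓ hℓ) hσ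
          exact inv_nonneg.2 (by linarith)
  · change ‖(q : ℝ) ^ (-σ)‖ < 1
    rw [Real.norm_of_nonneg (Real.rpow_nonneg (Nat.cast_nonneg q) _)]
    exact Real.rpow_lt_one_of_one_lt_of_neg (Nat.one_lt_cast.2 hq.one_lt) (by linarith)

/-- The same sum with the number of divisors as weights. -/
theorem sum_composed_card_divisors_le (S : Finset ℕ) (x : ℕ) (σ : ℝ) :
    ∑ n ∈ composedUpTo S x, (n.divisors.card : ℝ) * (n : ℝ) ^ (-σ) ≤
      (∑ n ∈ composedUpTo S x, (n : ℝ) ^ (-σ)) ^ 2 := by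
  classical
  rw [sq, sum_mul_sum, ← sum_product']
  refine le_trans (le_of_eq ?_) (sum_le_sum_of_subset_of_nonneg
    (s := (composedUpTo S x).biUnion fun n => n.divisorsAntidiagonal) (fun bc hbc => ?_)
    fun bc _ _ => by positivity)
  · rw [sum_biUnion]
    · refine sum_congr rfl fun n _ => ?_
      rw [← Nat.map_div_right_divisors, sum_map]
      simp only [Function.Embedding.coeFn_mk]
      rw [sum_congr rfl fun (d : ℕ) hd => show (d : ℝ) ^ (-σ) * ((n / d : ℕ) : ℝ) ^ (-σ) =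
          (n : ℝ) ^ (-σ) by
        rw [← Real.mul_rpow (Nat.cast_nonneg _) (Nat.cast_nonneg _), ← Nat.cast_mul,
          Nat.mul_div_cancel' (Nat.dvd_of_mem_divisors hd)]]
      rw [sum_const, nsmul_eq_mul]
    · intro a _ b _ hab
      rw [Function.onFun, disjoint_left]
      intro bc h h'
      rw [Nat.mem_divisorsAntidiagonal] at h h'
      exact hab (h.1.symm.trans h'.1)
  · rw [mem_biUnion] at hbc
    obtain ⟨n, hn, h⟩ := hbc
    rw [Nat.mem_divisorsAntidiagonal] at h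
    rw [mem_composedUpTo] at hn
    obtain ⟨b, c⟩ := bc
    obtain ⟨rfl, hne⟩ := h
    rw [mul_ne_zero_iff] at hne
    simp only [mem_product, mem_composedUpTo]
    exact ⟨⟨⟨by omega, (Nat.le_mul_of_pos_right b (by omega)).trans hn.1.2⟩,
      Nat.mem_factoredNumbers_of_dvd hn.2 (dvd_mul_right b c)⟩,
      ⟨⟨by omega, (Nat.le_mul_of_pos_left c (by omega)).trans hn.1.2⟩,
      Nat.mem_factoredNumbers_of_dvd hn.2 (dvd_mul_left c b)⟩⟩

/-- **Rankin's trick.** -/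
theorem sum_composed_tau_le (S : Finset ℕ) (hS : ∀ ℓ ∈ S, Nat.Prime ℓ) (x : ℕ) {σ : ℝ}
    (hσ : 1 / 2 ≤ σ) (hσ1 : σ < 1) :
    ∑ n ∈ composedUpTo S x, (n.divisors.card : ℝ) * (n : ℝ) ^ (-σ) ≤
      Real.exp (16 / (1 - σ) * (S.card : ℝ) ^ (1 - σ)) := by
  refine (sum_composed_card_divisors_le S x σ).trans
    ((pow_le_pow_left₀ (sum_nonneg fun n _ => by positivity)
      (sum_composed_rpow_le S hS x hσ) 2).trans ?_)
  rw [← Real.exp_nat_mul, Real.exp_le_exp]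
  have h := sum_rpow_neg_le_card S (fun ℓ hℓ => (hS ℓ hℓ).one_le) (by linarith) hσ1
  push_cast
  rw [show (16 : ℝ) / (1 - σ) = 8 * (2 / (1 - σ)) by ring]
  linarith

end FA.PrimeResidues

end
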